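import Fermat.Agent.BaseChangeFF.Tensor
import Fermat.Agent.AVFin.LD

/-!
# S26 (kb 66), block E1: the base change to a subfield inside the base change
-/

set_option autoImplicit false

open IntermediateField Module

noncomputable section

namespace Fermat.Agent.AVE1

open Fermat.Agent.BaseChangeFF

section

variable (K E E' F Ω : Type*) [Field K] [Field E] [Field E'] [Field F] [Field Ω]
  [Algebra K E] [Algebra K E'] [Algebra E E'] [IsScalarTower K E E'] [Algebra K F]
  [Algebra K Ω] [Algebra E Ω] [Algebra E' Ω] [Algebra F Ω] [IsScalarTower K E' Ω]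
  [IsScalarTower K F Ω] [IsScalarTower E E' Ω] [IsScalarTower K E Ω]

/-- the subfield generated by `E` and `F`. -/
def SubE : IntermediateField E Ω := adjoin E (Set.range (algebraMap F Ω))

instance : Algebra F (SubE E F Ω) :=
  ((algebraMap F Ω).codRestrict (SubE E F Ω).toSubfield
    (fun x => subset_adjoin E _ ⟨x, rfl⟩)).toAlgebra

theorem coe_algebraMap_F (x : F) : ((algebraMap F (SubE E F Ω) x : SubE E F Ω) : Ω) =
    algebraMap F Ω x := rfl

instance : IsScalarTower F (SubE E F Ω) Ω := IsScalarTower.of_algebraMap_eq' rfl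

instance : IsScalarTower K F (SubE E F Ω) := IsScalarTower.of_algebraMap_eq fun x =>
  Subtype.ext (IsScalarTower.algebraMap_apply K F Ω x)

theorem adjoin_range_eq_span : (Algebra.adjoin E (Set.range (algebraMap F Ω))).toSubmodule =
    Submodule.span E (Set.range (algebraMap F Ω)) := by
  rw [Algebra.adjoin_eq_span]
  congr 1
  exact congrArg _ (Submonoid.closure_eq (MonoidHom.mrange (algebraMap F Ω : F →* Ω)))

include E' in
omit [Algebra K E] [Algebra K E'] [IsScalarTower K E E'] [Algebra K Ω] [IsScalarTower K E' Ω]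
  [IsScalarTower K F Ω] [IsScalarTower K E Ω] in
theorem bc_subE [h : BC K E' F Ω] : BC K E F (SubE E F Ω) where
  lin n f hf := by
    have h1 := h.lin n f hf
    have h2 : LinearIndependent E (fun i => algebraMap F Ω (f i)) :=
      h1.restrict_scalars (R := E) (by
        intro a b hab
        simp only [Algebra.smul_def, mul_one] at hab
        exact (algebraMap E E').injective hab)
    exact LinearIndependent.of_comp (SubE E F Ω).val.toLinearMap h2
  gen z := by
    obtain ⟨r, hr, s, hs, hz⟩ := mem_adjoin_iff_div.mp z.2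
    have hlift : ∀ x ∈ Algebra.adjoin E (Set.range (algebraMap F Ω)),
        ∃ a : SubE E F Ω, a ∈ Submodule.span E (Set.range (algebraMap F (SubE E F Ω))) ∧
          (a : Ω) = x := by
      intro x hx
      have h1 : x ∈ Submodule.span E (Set.range (algebraMap F Ω)) := by
        rw [← adjoin_range_eq_span]; exact hx
      have h2 : (Submodule.span E (Set.range (algebraMap F (SubE E F Ω)))).map
          (SubE E F Ω).val.toLinearMap = Submodule.span E (Set.range (algebraMap F Ω)) := by
        rw [Submodule.map_span, ← Set.range_comp]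
        rfl
      rw [← h2] at h1
      obtain ⟨a, ha, hax⟩ := h1
      exact ⟨a, ha, hax⟩
    by_cases hs0 : s = 0
    · refine ⟨0, 1, zero_mem _, Submodule.subset_span ⟨1, map_one _⟩, one_ne_zero, ?_⟩
      rw [hs0, div_zero] at hz
      rw [mul_one]
      exact Subtype.ext hz
    · obtain ⟨a, ha, har⟩ := hlift r hr
      obtain ⟨b, hb, hbs⟩ := hlift s hs
      refine ⟨a, b, ha, hb, ?_, ?_⟩
      · rintro rfl
        exact hs0 hbs.symm
      · apply Subtype.ext
        show (z : Ω) * b = a
        rw [hbs, har, hz, div_mul_cancel₀ _ hs0]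

/-- the degree of `Ω = E'(F)` over `E(F)`. -/
theorem finrank_subE [h : BC K E' F Ω] : finrank (SubE E F Ω) Ω = finrank E E' := by
  let B : IntermediateField K Ω := (IsScalarTower.toAlgHom K F Ω).fieldRange
  let ψ : E' →ₐ[K] Ω := IsScalarTower.toAlgHom K E' Ω
  let X : IntermediateField K Ω := ψ.fieldRange
  let Y₀ : IntermediateField K E' := (IsScalarTower.toAlgHom K E E').fieldRange
  let Y : IntermediateField K Ω := Y₀.map ψ
  have hX : X = (⊤ : IntermediateField K E').map ψ := by
    rw [← AlgHom.fieldRange_eq_map]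
  have hYX : Y ≤ X := by
    rw [hX]; exact map_mono ψ le_top
  have hd : B.LinearDisjoint X := by
    let e : F ≃ₐ[K] B := AlgEquiv.ofInjectiveField (IsScalarTower.toAlgHom K F Ω)
    let b := Basis.ofVectorSpace K F
    refine LinearDisjoint.of_basis_left (b.map e.toLinearEquiv) ?_
    have h1 := h.linearIndependent b.linearIndependent
    refine h1.map_of_surjective_injective (AlgEquiv.ofInjectiveField ψ) (AddMonoidHom.id Ω)
      (AlgEquiv.surjective _) (by simp) (fun c x => ?_)
    rw [Algebra.smul_def, Algebra.smul_def]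
    rfl
  have h1 := AVFin.relfinrank_sup_eq hYX hd
  have h2 : B ⊔ X = ⊤ := by
    rw [eq_top_iff]
    intro z _
    obtain ⟨a, b, ha, hb, hb0, hz⟩ := h.gen z
    have hspan : ∀ x ∈ Submodule.span E' (Set.range (algebraMap F Ω)), x ∈ B ⊔ X := by
      intro x hx
      induction hx using Submodule.span_induction with
      | mem x hx =>
        obtain ⟨y, rfl⟩ := hx
        exact (le_sup_left : B ≤ B ⊔ X) ⟨y, rfl⟩
      | zero => exact zero_mem _
      | add x y _ _ hx hy => exact add_mem hx hy
      | smul c x _ hx =>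
        rw [Algebra.smul_def]
        exact mul_mem ((le_sup_right : X ≤ B ⊔ X) ⟨c, rfl⟩) hx
    have : z = a / b := by
      rw [eq_div_iff hb0, hz]
    rw [this]
    exact div_mem (hspan a ha) (hspan b hb)
  have h3 : relfinrank Y X = finrank E E' := by
    rw [hX]
    show relfinrank (Y₀.map ψ) _ = _
    rw [relfinrank_map_map, relfinrank_top_right]
    exact (Algebra.finrank_eq_of_equiv_equiv
      (AlgEquiv.ofInjectiveField (IsScalarTower.toAlgHom K E E')).toRingEquiv
      (RingEquiv.refl E') (by ext x; rfl)).symm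
  have h4 : (SubE E F Ω).restrictScalars K = B ⊔ Y := by
    apply le_antisymm
    · have hY : ∀ x : E, algebraMap E Ω x ∈ B ⊔ Y := fun x =>
        (le_sup_right : Y ≤ B ⊔ Y) ⟨algebraMap E E' x, ⟨x, rfl⟩,
          (IsScalarTower.algebraMap_apply E E' Ω x).symm⟩
      let T : IntermediateField E Ω :=
        { (B ⊔ Y).toSubfield with algebraMap_mem' := hY }
      have : SubE E F Ω ≤ T := by
        rw [SubE, adjoin_le_iff]
        rintro _ ⟨x, rfl⟩
        exact (le_sup_left : B ≤ B ⊔ Y) ⟨x, rfl⟩
      exact this
    · apply sup_le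
      · rintro _ ⟨x, rfl⟩
        exact subset_adjoin E _ ⟨x, rfl⟩
      · rintro _ ⟨_, ⟨x, rfl⟩, rfl⟩
        show ψ (algebraMap E E' x) ∈ SubE E F Ω
        have : ψ (algebraMap E E' x) = algebraMap E Ω x :=
          (IsScalarTower.algebraMap_apply E E' Ω x).symm
        rw [this]
        exact (SubE E F Ω).algebraMap_mem x
  rw [h2, ← h4, relfinrank_top_right, h3] at h1
  exact h1

end

end Fermat.Agent.AVE1
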