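import Fermat.Agent.AVE1.Tower

/-!
# S26 (kb 66), block E1: `ht` and `hgt`
-/

set_option autoImplicit false

universe u

open IntermediateField

noncomputable section

namespace Fermat.Agent.AVE1

open Fermat.Agent.AVn Fermat.Agent.BaseChangeFF

section

variable (K E F Ω : Type*) [Field K] [Field E] [Field F] [Field Ω]
  [Algebra K E] [Algebra K F]
  [Algebra K Ω] [Algebra E Ω] [Algebra F Ω]
  [IsScalarTower K F Ω] [IsScalarTower K E Ω]

theorem bc_subE' (h : ∀ (n : ℕ) (f : Fin n → F), LinearIndependent K f →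
    LinearIndependent E (fun i => algebraMap F Ω (f i))) : BC K E F (SubE E F Ω) where
  lin n f hf := LinearIndependent.of_comp (SubE E F Ω).val.toLinearMap (h n f hf)
  gen z := by
    obtain ⟨r, hr, s, hs, hz⟩ := mem_adjoin_iff_div.mp z.2
    have hlift : ∀ x ∈ Algebra.adjoin E (Set.range (algebraMap F Ω)),
        ∃ a : SubE E F Ω, a ∈ Submodule.span E (Set.range (algebraMap F (SubE E F Ω))) ∧
          (a : Ω) = x := by
      intro x hx
      have h1 : x ∈ Submodule.span E (Set.range (algebraMap F Ω)) := by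
        rw [← adjoin_range_eq_span]; exact hx
      have h2 : (Submodule.span E (Set.range (algebraMap F (SubE E F Ω)))).map
          (SubE E F Ω).val.toLinearMap = Submodule.span E (Set.range (algebraMap F Ω)) := by
        rw [Submodule.map_span, ← Set.range_comp]
        rfl
      rw [← h2] at h1
      obtain ⟨a, ha, hax⟩ := h1
      exact ⟨a, ha, hax⟩
    by_cases hs0 : s = 0
    · refine ⟨0, 1, zero_mem _, Submodule.subset_span ⟨1, map_one _⟩, one_ne_zero, ?_⟩
      rw [hs0, div_zero] at hz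
      rw [mul_one]
      exact Subtype.ext hz
    · obtain ⟨a, ha, har⟩ := hlift r hr
      obtain ⟨b, hb, hbs⟩ := hlift s hs
      refine ⟨a, b, ha, hb, ?_, ?_⟩
      · rintro rfl
        exact hs0 hbs.symm
      · apply Subtype.ext
        show (z : Ω) * b = a
        rw [hbs, har, hz, div_mul_cancel₀ _ hs0]

end

variable {K : Type u} [Field K] {g : ℕ} (A : AVar K g)

section

variable {Ω : Type u} [Field Ω] [Algebra K Ω] [Algebra A.F Ω] [IsScalarTower K A.F Ω]

theorem fd_gpt : A.fd (A.gpt Ω) = adjoin K (Set.range (algebraMap A.F Ω)) := by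
  rw [AVar.gpt, A.fd_map_gen]
  apply le_antisymm
  · rintro _ ⟨x, rfl⟩
    exact subset_adjoin K _ ⟨x, rfl⟩
  · rw [adjoin_le_iff]
    rintro _ ⟨x, rfl⟩
    exact ⟨x, rfl⟩

theorem ht_eq_hgt (k E : IntermediateField K Ω) [Algebra k E] [IsScalarTower K k E]
    [IsScalarTower k E Ω] (f : A.F) (P : A.Pt E) :
    A.ht k E (A.gpt Ω) f (A.map E.val P) = A.hgt k (SubE E A.F Ω) f
      (A.map (IsScalarTower.toAlgHom K E (SubE E A.F Ω)) P) := by
  have t1 : IsScalarTower k (SubE E A.F Ω) Ω := IsScalarTower.of_algebraMap_eq' rfl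
  have t2 : IsScalarTower K (SubE E A.F Ω) Ω := IsScalarTower.of_algebraMap_eq' rfl
  have h0 : A.map E.val P = A.map (IsScalarTower.toAlgHom K (SubE E A.F Ω) Ω)
      (A.map (IsScalarTower.toAlgHom K E (SubE E A.F Ω)) P) := by
    rw [← A.map_comp]
    rfl
  have h1 := kaf_map A k (SubE E A.F Ω) Ω f
    (A.map (IsScalarTower.toAlgHom K E (SubE E A.F Ω)) P)
  rw [← h0] at h1
  rw [AVar.hgt, AVar.ht]
  rw [← relfinrank_top_right, ← relfinrank_map_map _ _ (IsScalarTower.toAlgHom k (SubE E A.F Ω) Ω),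
    ← h1]
  have h2 : (A.kaf k Ω f (A.map E.val P)).toSubfield =
      (k ⊔ A.fd (A.gpt Ω) ⊔ K⟮A.ev (A.map E.val P - A.gpt Ω) f⟯).toSubfield := by
    have : (A.kaf k Ω f (A.map E.val P)).restrictScalars K =
      (k ⊔ A.fd (A.gpt Ω) ⊔ K⟮A.ev (A.map E.val P - A.gpt Ω) f⟯) := by
      rw [AVar.kaf, restrictScalars_adjoin, adjoin_union, adjoin_self, Set.insert_eq, adjoin_union,
        fd_gpt, sup_comm (K⟮_⟯), sup_assoc]
    rw [← this]
    rfl
  have h3 : ((⊤ : IntermediateField k (SubE E A.F Ω)).map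
      (IsScalarTower.toAlgHom k (SubE E A.F Ω) Ω)).toSubfield = (E ⊔ A.fd (A.gpt Ω)).toSubfield := by
    have : (SubE E A.F Ω).restrictScalars K = E ⊔ A.fd (A.gpt Ω) := by
      rw [SubE, restrictScalars_adjoin, adjoin_union, adjoin_self, fd_gpt]
    rw [← this]
    ext x
    constructor
    · rintro ⟨y, -, rfl⟩
      exact y.2
    · intro hx
      exact ⟨⟨x, hx⟩, trivial, rfl⟩
  show Subfield.relfinrank _ _ = Subfield.relfinrank _ _
  rw [h2, h3]

end

end Fermat.Agent.AVE1
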