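import Fermat.Agent.AVE1.Bridge
import Fermat.Agent.AVE.Quad

/-!
# S26 (kb 66), block E1: quadraticity of `ht` over an algebraically closed constant field
-/

set_option autoImplicit false

universe u

open IntermediateField

noncomputable section

namespace Fermat.Agent.AVE1

open Fermat.Agent.AVn Fermat.Agent.BaseChangeFF

variable {K : Type u} [Field K] {g : ℕ} {A : AVar K g}

theorem quadClosed [IsAlgClosed K] (hstar : A.StarStmt) (hB : HgtProps A) :
    AVE.QuadClosed A := by
  intro Ω _ _ _ k E hkE hk hfg htr f hf P a hP ha m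
  obtain ⟨s, hs⟩ := hfg
  obtain ⟨φ, hφa, hld⟩ := ha
  obtain ⟨P', rfl⟩ := A.exists_fd P hP
  let _ : Algebra A.F Ω := φ.toRingHom.toAlgebra
  have t0 : IsScalarTower K A.F Ω := IsScalarTower.of_algebraMap_eq fun x => (φ.commutes x).symm
  have hgpt : A.gpt Ω = a := hφa
  let _ : Algebra k E := (inclusion hkE).toAlgebra
  have t1 : IsScalarTower K k E := IsScalarTower.of_algebraMap_eq' rfl
  have t2 : IsScalarTower k E Ω := IsScalarTower.of_algebraMap_eq' rfl
  have t3 : IsScalarTower K k (SubE E A.F Ω) := IsScalarTower.of_algebraMap_eq' rfl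
  have hbc : BC K E A.F (SubE E A.F Ω) := by
    refine bc_subE' K E A.F Ω fun n f hf => ?_
    let e : A.F ≃ₐ[K] φ.fieldRange := AlgEquiv.ofInjectiveField φ
    have h1 : LinearIndependent K (fun i => e (f i)) :=
      hf.map' e.toLinearMap (LinearMap.ker_eq_bot.mpr e.injective)
    exact hld.linearIndependent_right h1
  let e : extendScalars hkE ≃ₐ[k] E :=
    { toFun := fun x => ⟨x.1, x.2⟩
      invFun := fun x => ⟨x.1, x.2⟩
      left_inv := fun _ => rfl
      right_inv := fun _ => rfl
      map_mul' := fun _ _ => rfl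
      map_add' := fun _ _ => rfl
      commutes' := fun _ => rfl }
  have htr' : Algebra.trdeg k E = 1 := by rw [← e.trdeg_eq]; exact htr
  have hfg' : (extendScalars hkE).FG := by
    refine ⟨s, ?_⟩
    apply restrictScalars_injective K
    rw [restrictScalars_adjoin_eq_sup, extendScalars_restrictScalars, ← hs]
  have hess0 : Algebra.EssFiniteType k (extendScalars hkE) := essFiniteType_iff.mpr hfg'
  have hess : Algebra.EssFiniteType k E :=
    Algebra.EssFiniteType.of_surjective e.toAlgHom e.surjective
  have key := hgt_zsmul hstar hB k E (SubE E A.F Ω) htr' f hf P' m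
  rw [← ht_eq_hgt A k E f, ← ht_eq_hgt A k E f, hgpt, A.map_zsmul, natCast_zsmul] at key
  exact_mod_cast key

end Fermat.Agent.AVE1
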