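import Mathlib

/-!
# Separating elements and Galois closures inside an algebraically closed field
-/

set_option autoImplicit false

noncomputable section

open IntermediateField Module

namespace Fermat.Agent.AVE1

universe u

theorem finiteDimensional_of_fg_of_isAlgebraic (k E : Type*) [Field k] [Field E] [Algebra k E]
    (h : (⊤ : IntermediateField k E).FG) [Algebra.IsAlgebraic k E] : FiniteDimensional k E := by
  obtain ⟨s, hs⟩ := h
  have : FiniteDimensional k (adjoin k (s : Set E)) :=
    finiteDimensional_adjoin (fun x _ => Algebra.IsIntegral.isIntegral x)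
  rw [hs] at this
  exact (topEquiv (F := k) (E := E)).toLinearEquiv.finiteDimensional

/-- A finitely generated extension of transcendence degree one of a perfect field is finite
separable over `k(u)` for some transcendental `u`. -/
theorem exists_separating (k E : Type*) [Field k] [Field E] [Algebra k E] [PerfectField k]
    [Algebra.EssFiniteType k E] (htr : Algebra.trdeg k E = 1) :
    ∃ u : E, Transcendental k u ∧ Algebra.IsSeparable k⟮u⟯ E ∧ FiniteDimensional k⟮u⟯ E := by
  obtain ⟨s, hs, hsep⟩ := exists_isTranscendenceBasis_and_isSeparable_of_perfectField k E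
  have hcard : Cardinal.mk s = 1 := by
    rw [hs.cardinalMk_eq_trdeg, htr]
  have hcard' : s.card = 1 := by
    rw [Cardinal.mk_coe_finset] at hcard
    exact_mod_cast hcard
  obtain ⟨u, rfl⟩ := Finset.card_eq_one.mp hcard'
  rw [Finset.coe_singleton] at hsep
  refine ⟨u, ?_, hsep, ?_⟩
  · exact hs.1.transcendental ⟨u, by simp⟩
  · have h2 : Algebra.EssFiniteType k⟮u⟯ E := Algebra.EssFiniteType.of_comp k k⟮u⟯ E
    exact finiteDimensional_of_fg_of_isAlgebraic _ _ (fg_top _ _)

/-- Galois closure inside an algebraically closed field. -/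
theorem exists_galois_closure (B Ω : Type*) [Field B] [Field Ω] [Algebra B Ω] [IsAlgClosed Ω]
    (E : IntermediateField B Ω) [FiniteDimensional B E] [Algebra.IsSeparable B E] :
    ∃ E' : IntermediateField B Ω, E ≤ E' ∧ FiniteDimensional B E' ∧ IsGalois B E' := by
  refine ⟨normalClosure B E Ω, ?_, inferInstance, ?_⟩
  · have := AlgHom.fieldRange_le_normalClosure (F := B) (K := E) (L := Ω) E.val
    rwa [fieldRange_val] at this
  · have h1 : IsNormalClosure B E (normalClosure B E Ω) :=
      Algebra.IsAlgebraic.isNormalClosure_normalClosure fun x => IsAlgClosed.splits _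
    have h2 : Normal B (normalClosure B E Ω) := h1.normal
    have h3 : Algebra.IsSeparable B (normalClosure B E Ω) := by
      rw [normalClosure_def]
      have : ∀ f : E →ₐ[B] Ω, Algebra.IsSeparable B f.fieldRange := fun f =>
        (AlgEquiv.Algebra.isSeparable (AlgEquiv.ofInjectiveField f))
      exact isSeparable_iSup B Ω
    exact IsGalois.mk

/-- Separating element, inside a big field. -/
theorem exists_separating' {K Ω : Type*} [Field K] [Field Ω] [Algebra K Ω]
    {k E : IntermediateField K Ω} (hkE : k ≤ E) [PerfectField k]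
    (hfg : (extendScalars hkE).FG) (htr : Algebra.trdeg k (extendScalars hkE) = 1) :
    ∃ u ∈ E, ∃ hu : k ⊔ K⟮u⟯ ≤ E, Transcendental k u ∧
      FiniteDimensional (k ⊔ K⟮u⟯ : IntermediateField K Ω) (extendScalars hu) ∧
      Algebra.IsSeparable (k ⊔ K⟮u⟯ : IntermediateField K Ω) (extendScalars hu) := by
  have hess : Algebra.EssFiniteType k (extendScalars hkE) := essFiniteType_iff.mpr hfg
  obtain ⟨⟨u, huE⟩, hu, hsep, hfin⟩ := exists_separating k (extendScalars hkE) htr
  have huE' : u ∈ E := huE
  have huE2 : k ⊔ K⟮u⟯ ≤ E := sup_le hkE (by simpa using huE')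
  have hut : Transcendental k u := by
    have := (transcendental_algebraMap_iff (A := Ω)
      (algebraMap (extendScalars hkE) Ω).injective).mpr hu
    exact this
  let _ : Algebra k (k ⊔ K⟮u⟯ : IntermediateField K Ω) := (inclusion le_sup_left).toAlgebra
  have htow : IsScalarTower k (k ⊔ K⟮u⟯ : IntermediateField K Ω) Ω :=
    IsScalarTower.of_algebraMap_eq' rfl
  -- the field `k(u)` inside `E`
  set B' : IntermediateField k (extendScalars hkE) := k⟮(⟨u, huE⟩ : extendScalars hkE)⟯ with hB'
  have hle : ∀ x : B', ((x : extendScalars hkE) : Ω) ∈ (k ⊔ K⟮u⟯ : IntermediateField K Ω) := by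
    rintro ⟨x, hx⟩
    have h1 : B' ≤ (extendScalars (le_sup_left : k ≤ k ⊔ K⟮u⟯)).comap
        (extendScalars hkE).val := by
      rw [hB', adjoin_simple_le_iff]
      show u ∈ (k ⊔ K⟮u⟯ : IntermediateField K Ω)
      exact (le_sup_right : K⟮u⟯ ≤ k ⊔ K⟮u⟯) (mem_adjoin_simple_self K u)
    exact h1 hx
  let φ : B' →+* (k ⊔ K⟮u⟯ : IntermediateField K Ω) :=
    ((algebraMap (extendScalars hkE) Ω).comp (algebraMap B' (extendScalars hkE))).codRestrict
      (k ⊔ K⟮u⟯ : IntermediateField K Ω).toSubfield hle
  let _ : Algebra B' (k ⊔ K⟮u⟯ : IntermediateField K Ω) := φ.toAlgebra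
  have htow1 : IsScalarTower B' (extendScalars hkE) Ω := inferInstance
  have htow2 : IsScalarTower B' (k ⊔ K⟮u⟯ : IntermediateField K Ω) Ω :=
    IsScalarTower.of_algebraMap_eq' rfl
  have hsep' : Algebra.IsSeparable (k ⊔ K⟮u⟯ : IntermediateField K Ω) (extendScalars huE2) := by
    refine ⟨fun x => ?_⟩
    have h1 : IsSeparable B' (⟨(x : Ω), x.2⟩ : extendScalars hkE) := hsep.isSeparable _ _
    have h2 : IsSeparable B' (x : Ω) := h1.map (IsScalarTower.toAlgHom B' (extendScalars hkE) Ω)
      (algebraMap (extendScalars hkE) Ω).injective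
    have h3 : IsSeparable (k ⊔ K⟮u⟯ : IntermediateField K Ω) (x : Ω) :=
      IsSeparable.tower_top _ h2
    exact IsSeparable.of_algHom (f := (extendScalars huE2).val) h3
  refine ⟨u, huE', huE2, hut, ?_, hsep'⟩
  let e : extendScalars hkE →ₐ[k] extendScalars huE2 :=
    { toFun := fun x => ⟨(x : Ω), x.2⟩
      map_one' := rfl
      map_mul' := fun _ _ => rfl
      map_zero' := rfl
      map_add' := fun _ _ => rfl
      commutes' := fun _ => rfl }
  have hess2 : Algebra.EssFiniteType k (extendScalars huE2) :=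
    Algebra.EssFiniteType.of_surjective e (fun x => ⟨⟨(x : Ω), x.2⟩, rfl⟩)
  have h2 : Algebra.EssFiniteType (k ⊔ K⟮u⟯ : IntermediateField K Ω) (extendScalars huE2) :=
    Algebra.EssFiniteType.of_comp k _ _
  exact finiteDimensional_of_fg_of_isAlgebraic _ _ (fg_top _ _)

/-- Separating element and Galois closure, inside an algebraically closed field. -/
theorem exists_galois {K Ω : Type*} [Field K] [Field Ω] [Algebra K Ω] [IsAlgClosed Ω]
    {k E : IntermediateField K Ω} (hkE : k ≤ E) [PerfectField k]
    (hfg : (extendScalars hkE).FG) (htr : Algebra.trdeg k (extendScalars hkE) = 1) :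
    ∃ u ∈ E, ∃ E' : IntermediateField K Ω, ∃ _ : E ≤ E', ∃ hu : k ⊔ K⟮u⟯ ≤ E',
      Transcendental k u ∧ FiniteDimensional (k ⊔ K⟮u⟯ : IntermediateField K Ω) (extendScalars hu) ∧
      IsGalois (k ⊔ K⟮u⟯ : IntermediateField K Ω) (extendScalars hu) := by
  obtain ⟨u, huE, hu, hut, hfin, hsep⟩ := exists_separating' hkE hfg htr
  obtain ⟨E', hEE', hfin', hgal⟩ := exists_galois_closure (k ⊔ K⟮u⟯ : IntermediateField K Ω) Ω
    (extendScalars hu)
  have h1 : k ⊔ K⟮u⟯ ≤ E'.restrictScalars K := fun x hx => E'.algebraMap_mem ⟨x, hx⟩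
  have h2 : extendScalars h1 = E' := by
    ext x
    rfl
  refine ⟨u, huE, E'.restrictScalars K, fun x hx => hEE' hx, h1, hut, ?_, ?_⟩
  · rw [h2]; exact hfin'
  · rw [h2]; exact hgal

end Fermat.Agent.AVE1
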