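import Fermat.Agent.AVn.Stmts
import Fermat.Agent.AVE1.Galois
import Fermat.Agent.AVn.Quad
import Fermat.Agent.BaseChangeFF.Tensor

/-!
# S26 (kb 66), block E1: quadraticity of heights over an algebraically closed constant field
-/

set_option autoImplicit false

universe u

open IntermediateField

noncomputable section

namespace Fermat.Agent.AVE1

open Fermat.Agent.AVn Fermat.Agent.BaseChangeFF

/-- Galois closure of a separably generated extension, as a type. -/
theorem exists_galois_type (k E : Type u) [Field k] [Field E] [Algebra k E] (u : E)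
    (hu : Transcendental k u) [Algebra.IsSeparable k⟮u⟯ E] [FiniteDimensional k⟮u⟯ E] :
    ∃ (E' : Type u) (_ : Field E') (_ : Algebra k E') (_ : Algebra E E')
      (_ : IsScalarTower k E E'), FiniteDimensional E E' ∧ ∃ u' : E', Transcendental k u' ∧
      FiniteDimensional k⟮u'⟯ E' ∧ IsGalois k⟮u'⟯ E' := by
  let Ω₀ := AlgebraicClosure E
  let φB : E →ₐ[k⟮u⟯] Ω₀ := IsScalarTower.toAlgHom k⟮u⟯ E Ω₀
  have hfin : FiniteDimensional k⟮u⟯ φB.fieldRange :=
    (AlgEquiv.ofInjectiveField φB).toLinearEquiv.finiteDimensional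
  have hsep : Algebra.IsSeparable k⟮u⟯ φB.fieldRange :=
    AlgEquiv.Algebra.isSeparable (AlgEquiv.ofInjectiveField φB)
  obtain ⟨E', hle, hfin', hgal⟩ := exists_galois_closure k⟮u⟯ Ω₀ φB.fieldRange
  have hmem : ∀ x : E, algebraMap E Ω₀ x ∈ E' := fun x => hle ⟨x, rfl⟩
  let ψ : E →+* E' := (algebraMap E Ω₀).codRestrict E'.toSubfield hmem
  let _ : Algebra E E' := ψ.toAlgebra
  let _ : Algebra k E' := (ψ.comp (algebraMap k E)).toAlgebra
  have htow1 : IsScalarTower k E E' := IsScalarTower.of_algebraMap_eq' rfl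
  have htow2 : IsScalarTower k⟮u⟯ E E' := IsScalarTower.of_algebraMap_eq fun x => Subtype.ext rfl
  have htow3 : IsScalarTower k k⟮u⟯ E' := IsScalarTower.of_algebraMap_eq fun x => Subtype.ext rfl
  have hfinE : FiniteDimensional E E' := Module.Finite.of_restrictScalars_finite k⟮u⟯ E E'
  let φ : E →ₐ[k] E' := IsScalarTower.toAlgHom k E E'
  let e : k⟮u⟯ ≃ₐ[k] k⟮φ u⟯ := (equivMap k⟮u⟯ φ).trans (equivOfEq (by
    rw [adjoin_map, Set.image_singleton]))
  have he : (algebraMap k⟮φ u⟯ E').comp (e : k⟮u⟯ →+* k⟮φ u⟯) =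
      ((RingEquiv.refl E' : E' ≃+* E') : E' →+* E').comp (algebraMap k⟮u⟯ E') := by
    ext x
    rfl
  refine ⟨E', inferInstance, inferInstance, inferInstance, htow1, hfinE, φ u, ?_, ?_, ?_⟩
  · exact (transcendental_algebraMap_iff (A := E') φ.injective).mpr hu
  · exact Module.Finite.of_equiv_equiv e.toRingEquiv (RingEquiv.refl E') he
  · exact IsGalois.of_equiv_equiv (f := e.toRingEquiv) (g := RingEquiv.refl E') he

section

variable {K : Type u} [Field K] {g : ℕ} (A : AVar K g)

/-- the action of automorphisms on points -/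
@[implicit_reducible]
def ptAction (k E : Type u) [Field k] [Field E] [Algebra K k] [Algebra k E] [Algebra K E]
    [IsScalarTower K k E] (u : E) : DistribMulAction (E ≃ₐ[k⟮u⟯] E) (A.Pt E) where
  smul s v := A.map ((s.toAlgHom.restrictScalars k).restrictScalars K) v
  one_smul v := A.map_id v
  mul_smul s t v := A.map_comp ((t.toAlgHom.restrictScalars k).restrictScalars K)
    ((s.toAlgHom.restrictScalars k).restrictScalars K) v
  smul_zero _ := A.map_zero _
  smul_add _ v w := A.map_add _ v w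

/-- elementary properties of the heights (block B0b). -/
structure HgtProps : Prop where
  zero : ∀ (k E Ω : Type u) [Field k] [Field E] [Field Ω] [Algebra K k] [Algebra k E]
    [Algebra K E] [IsScalarTower K k E] [Algebra E Ω] [Algebra K Ω] [Algebra k Ω]
    [IsScalarTower K E Ω] [IsScalarTower k E Ω] [IsScalarTower K k Ω] [Algebra A.F Ω]
    [IsScalarTower K A.F Ω] [BC K E A.F Ω] (f : A.F), ¬ Algebra.IsAlgebraic k E →
    A.hgt k Ω f (A.map (IsScalarTower.toAlgHom K E Ω) 0) = 0
  neg : ∀ (k E Ω : Type u) [Field k] [Field E] [Field Ω] [Algebra K k] [Algebra k E]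
    [Algebra K E] [IsScalarTower K k E] [Algebra E Ω] [Algebra K Ω] [Algebra k Ω]
    [IsScalarTower K E Ω] [IsScalarTower k E Ω] [IsScalarTower K k Ω] [Algebra A.F Ω]
    [IsScalarTower K A.F Ω] [BC K E A.F Ω] (f : A.F), A.Even f → ∀ (P : A.Pt E),
    A.hgt k Ω f (A.map (IsScalarTower.toAlgHom K E Ω) (-P)) =
      A.hgt k Ω f (A.map (IsScalarTower.toAlgHom K E Ω) P)
  aut : ∀ (k E Ω : Type u) [Field k] [Field E] [Field Ω] [Algebra K k] [Algebra k E]
    [Algebra K E] [IsScalarTower K k E] [Algebra E Ω] [Algebra K Ω] [Algebra k Ω]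
    [IsScalarTower K E Ω] [IsScalarTower k E Ω] [IsScalarTower K k Ω] [Algebra A.F Ω]
    [IsScalarTower K A.F Ω] [BC K E A.F Ω] (f : A.F) (σ : E ≃ₐ[k] E) (P : A.Pt E),
    A.hgt k Ω f (A.map (IsScalarTower.toAlgHom K E Ω)
      (A.map (σ.toAlgHom.restrictScalars K) P)) =
      A.hgt k Ω f (A.map (IsScalarTower.toAlgHom K E Ω) P)
  tower : ∀ (k E E' Ω Ω' : Type u) [Field k] [Field E] [Field E'] [Field Ω] [Field Ω']
    [Algebra K k] [Algebra k E]
    [Algebra K E] [IsScalarTower K k E] [Algebra E Ω] [Algebra K Ω] [Algebra k Ω]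
    [IsScalarTower K E Ω] [IsScalarTower k E Ω] [IsScalarTower K k Ω] [Algebra A.F Ω]
    [IsScalarTower K A.F Ω] [BC K E A.F Ω]
    [Algebra k E'] [Algebra E E'] [IsScalarTower k E E']
    [Algebra K E'] [IsScalarTower K k E'] [IsScalarTower K E E']
    [Algebra E' Ω'] [Algebra K Ω'] [Algebra k Ω']
    [IsScalarTower K E' Ω'] [IsScalarTower k E' Ω'] [IsScalarTower K k Ω'] [Algebra A.F Ω']
    [IsScalarTower K A.F Ω'] [BC K E' A.F Ω'] [FiniteDimensional E E'] (f : A.F) (P : A.Pt E),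
    A.hgt k Ω' f (A.map (IsScalarTower.toAlgHom K E' Ω')
      (A.map (IsScalarTower.toAlgHom K E E') P)) =
      Module.finrank E E' * A.hgt k Ω f (A.map (IsScalarTower.toAlgHom K E Ω) P)

variable {A}

theorem hgt_zsmul [IsAlgClosed K] (hstar : A.StarStmt) (hB : HgtProps A)
    (k E Ω : Type u) [Field k] [IsAlgClosed k] [Field E] [Field Ω] [Algebra K k] [Algebra k E]
    [Algebra K E] [IsScalarTower K k E] [Algebra E Ω] [Algebra K Ω] [Algebra k Ω]
    [IsScalarTower K E Ω] [IsScalarTower k E Ω] [IsScalarTower K k Ω] [Algebra A.F Ω]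
    [IsScalarTower K A.F Ω] [BC K E A.F Ω] [Algebra.EssFiniteType k E]
    (htr : Algebra.trdeg k E = 1) (f : A.F) (hf : A.Even f) (P : A.Pt E) (m : ℤ) :
    (A.hgt k Ω f (A.map (IsScalarTower.toAlgHom K E Ω) (m • P)) : ℤ) =
      m ^ 2 * A.hgt k Ω f (A.map (IsScalarTower.toAlgHom K E Ω) P) := by
  obtain ⟨u, hu, hsep, hfin⟩ := exists_separating k E htr
  obtain ⟨E', _, _, _, _, hfinE, u', hu', hfin', hgal'⟩ := exists_galois_type k E u hu
  let _ : Algebra K E' := ((algebraMap E E').comp (algebraMap K E)).toAlgebra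
  have htK : IsScalarTower K E E' := IsScalarTower.of_algebraMap_eq' rfl
  have htK' : IsScalarTower K k E' := IsScalarTower.of_algebraMap_eq fun x => by
    rw [IsScalarTower.algebraMap_apply k E E', ← IsScalarTower.algebraMap_apply K k E]
    rfl
  let Ω' := BCField K E' A.F
  let _ : Algebra k Ω' := ((algebraMap E' Ω').comp (algebraMap k E')).toAlgebra
  have ht1 : IsScalarTower k E' Ω' := IsScalarTower.of_algebraMap_eq' rfl
  have ht2 : IsScalarTower K k Ω' := IsScalarTower.of_algebraMap_eq fun x => by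
    rw [IsScalarTower.algebraMap_apply k E' Ω', ← IsScalarTower.algebraMap_apply K k E',
      ← IsScalarTower.algebraMap_apply K E' Ω']
  let _ : DistribMulAction (E' ≃ₐ[k⟮u'⟯] E') (A.Pt E') := ptAction A k E' u'
  have hsmul : ∀ (s : E' ≃ₐ[k⟮u'⟯] E') (v : A.Pt E'), s • v =
    A.map ((s.toAlgHom.restrictScalars k).restrictScalars K) v := fun _ _ => rfl
  have hnalg : ¬ Algebra.IsAlgebraic k E' := fun h => hu' (h.isAlgebraic u')
  have key := AVQuad.quad (V := A.Pt E') (G := E' ≃ₐ[k⟮u'⟯] E')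
    (fun v => (A.hgt k Ω' f (A.map (IsScalarTower.toAlgHom K E' Ω') v) : ℝ))
    (by
      show ((A.hgt k Ω' f (A.map (IsScalarTower.toAlgHom K E' Ω') 0) : ℕ) : ℝ) = 0
      rw [hB.zero k E' Ω' f hnalg, Nat.cast_zero])
    (fun v => Nat.cast_nonneg _)
    (fun v => by
      show ((A.hgt k Ω' f (A.map (IsScalarTower.toAlgHom K E' Ω') (-v)) : ℕ) : ℝ) = _
      rw [hB.neg k E' Ω' f hf v])
    (fun s v => by
      show ((A.hgt k Ω' f (A.map (IsScalarTower.toAlgHom K E' Ω') (s • v)) : ℕ) : ℝ) = _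
      rw [hsmul]
      exact congrArg Nat.cast (hB.aut k E' Ω' f (s.restrictScalars k) v))
    (fun v w => by
      have h := hstar k E' Ω' u' hu' f v w
      rw [← Nat.cast_sum]
      exact_mod_cast h)
    m (A.map (IsScalarTower.toAlgHom K E E') P)
  rw [← A.map_zsmul] at key
  have key2 : (A.hgt k Ω' f (A.map (IsScalarTower.toAlgHom K E' Ω')
      (A.map (IsScalarTower.toAlgHom K E E') (m • P))) : ℤ) =
      m ^ 2 * A.hgt k Ω' f (A.map (IsScalarTower.toAlgHom K E' Ω')
        (A.map (IsScalarTower.toAlgHom K E E') P)) := by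
    exact_mod_cast key
  rw [hB.tower k E E' Ω Ω' f (m • P), hB.tower k E E' Ω Ω' f P] at key2
  have hpos : (Module.finrank E E' : ℤ) ≠ 0 := by
    exact_mod_cast (Module.finrank_pos (R := E) (M := E')).ne'
  apply mul_left_cancel₀ hpos
  push_cast at key2
  rw [key2]
  ring

end

end Fermat.Agent.AVE1
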