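import Fermat.Agent.AVE1.Final
import Fermat.Agent.AVG.Bridge

/-!
# S26 (kb 66), block E: `StarStmt → QuadStmt`
-/

set_option autoImplicit false

universe u

namespace Fermat.Agent.AVE1

open Fermat.Agent.AVn Fermat.Agent.BaseChangeFF

variable {K : Type u} [Field K] {g : ℕ}

theorem hgtIso (A : AVar K g) : HgtIso A := by
  unfold HgtIso
  intros
  exact (A.hgt_indep _ _).symm

theorem hgtProps (A : AVar K g) : HgtProps A where
  zero := by
    intros
    exact A.hgt_zero _ ‹_›
  neg := by
    intros
    exact A.hgt_neg ‹_› _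
  aut := by
    intros
    exact A.hgt_aut _ _ _
  tower := by
    intros
    exact hgt_tower (hgtIso A) _ _ _ _ _ _ _

/-- **Block E**: the identity `(*)` implies quadraticity. -/
theorem quadStmt [IsAlgClosed K] (A : AVar K g) (hstar : A.StarStmt) : A.QuadStmt :=
  AVE.quadStmt_of_closed A (quadClosed hstar (hgtProps A))

end Fermat.Agent.AVE1
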