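import Fermat.Agent.AVE1.Quad1
import Fermat.Agent.AVb.Fd
import Fermat.Agent.AVE1.BCSub

/-!
# S26 (kb 66), block E1: heights in a finite extension
-/

set_option autoImplicit false

universe u

open IntermediateField

noncomputable section

namespace Fermat.Agent.AVE1

open Fermat.Agent.AVn Fermat.Agent.BaseChangeFF

variable {K : Type u} [Field K] {g : ℕ} (A : AVar K g)

theorem ev_map {Ω Ω' : Type u} [Field Ω] [Field Ω'] [Algebra K Ω] [Algebra K Ω']
    (φ : Ω →ₐ[K] Ω') (z : A.Pt Ω) (f : A.F) : A.ev (A.map φ z) f = φ (A.ev z f) := by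
  by_cases h : ∃ ψ : A.F →ₐ[K] Ω, A.map ψ A.gen = z
  · obtain ⟨ψ, rfl⟩ := h
    rw [← A.map_comp, A.ev_eq, A.ev_eq]
    rfl
  · have h' : ¬ ∃ ψ : A.F →ₐ[K] Ω', A.map ψ A.gen = A.map φ z := by
      rintro ⟨ψ, hψ⟩
      apply h
      apply A.exists_ev
      have h1 : A.fd (A.map φ z) = (A.fd z).map φ := A.fd_map φ z
      rw [← hψ, A.fd_map_gen] at h1
      have h2 : Algebra.trdeg K ψ.fieldRange = g := by
        rw [← A.trdeg_F]
        exact ((AlgEquiv.ofInjectiveField ψ).trdeg_eq).symm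
      rw [h1] at h2
      rw [← h2]
      exact ((A.fd z).equivMap φ).trdeg_eq
    rw [AVar.ev, AVar.ev, dif_neg h, dif_neg h', map_zero]

section

variable (k Ω Ω' : Type u) [Field k] [Field Ω] [Field Ω'] [Algebra k Ω] [Algebra K Ω]
  [Algebra A.F Ω] [IsScalarTower K A.F Ω] [Algebra k Ω'] [Algebra K Ω'] [Algebra A.F Ω']
  [IsScalarTower K A.F Ω'] [Algebra Ω Ω'] [IsScalarTower k Ω Ω'] [IsScalarTower K Ω Ω']
  [IsScalarTower A.F Ω Ω']

theorem map_gpt : A.map (IsScalarTower.toAlgHom K Ω Ω') (A.gpt Ω) = A.gpt Ω' := by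
  rw [AVar.gpt, AVar.gpt, ← A.map_comp]
  congr 1
  ext x
  exact (IsScalarTower.algebraMap_apply A.F Ω Ω' x).symm

theorem kaf_map (f : A.F) (z : A.Pt Ω) :
    A.kaf k Ω' f (A.map (IsScalarTower.toAlgHom K Ω Ω') z) =
      (A.kaf k Ω f z).map (IsScalarTower.toAlgHom k Ω Ω') := by
  rw [AVar.kaf, AVar.kaf, adjoin_map]
  congr 1
  rw [Set.image_insert_eq, ← map_gpt A Ω Ω', ← A.map_sub, ev_map]
  congr 1
  rw [← Set.range_comp]
  congr 1
  ext x
  exact IsScalarTower.algebraMap_apply A.F Ω Ω' x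

theorem hgt_map (f : A.F) (z : A.Pt Ω) :
    A.hgt k Ω' f (A.map (IsScalarTower.toAlgHom K Ω Ω') z) =
      Module.finrank Ω Ω' * A.hgt k Ω f z := by
  rw [AVar.hgt, AVar.hgt, kaf_map]
  let φ : Ω →ₐ[k] Ω' := IsScalarTower.toAlgHom k Ω Ω'
  have h1 : Module.finrank (A.kaf k Ω f z) Ω' =
      Module.finrank ((A.kaf k Ω f z).map φ) Ω' :=
    Algebra.finrank_eq_of_equiv_equiv ((A.kaf k Ω f z).equivMap φ).toRingEquiv
      (RingEquiv.refl Ω') (by ext x; rfl)
  rw [← h1, mul_comm]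
  exact (Module.finrank_mul_finrank (A.kaf k Ω f z) Ω Ω').symm

end

/-- the height does not depend on the base change field -/
def HgtIso : Prop := ∀ (k E Ω Ω' : Type u) [Field k] [Field E] [Field Ω] [Field Ω']
    [Algebra K k] [Algebra k E]
    [Algebra K E] [IsScalarTower K k E] [Algebra E Ω] [Algebra K Ω] [Algebra k Ω]
    [IsScalarTower K E Ω] [IsScalarTower k E Ω] [IsScalarTower K k Ω] [Algebra A.F Ω]
    [IsScalarTower K A.F Ω] [BC K E A.F Ω]
    [Algebra E Ω'] [Algebra K Ω'] [Algebra k Ω']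
    [IsScalarTower K E Ω'] [IsScalarTower k E Ω'] [IsScalarTower K k Ω'] [Algebra A.F Ω']
    [IsScalarTower K A.F Ω'] [BC K E A.F Ω'] (f : A.F) (P : A.Pt E),
    A.hgt k Ω f (A.map (IsScalarTower.toAlgHom K E Ω) P) =
      A.hgt k Ω' f (A.map (IsScalarTower.toAlgHom K E Ω') P)

variable {A}

theorem hgt_tower (hiso : HgtIso A) (k E E' Ω Ω' : Type u) [Field k] [Field E] [Field E'] [Field Ω]
    [Field Ω'] [Algebra K k] [Algebra k E]
    [Algebra K E] [IsScalarTower K k E] [Algebra E Ω] [Algebra K Ω] [Algebra k Ω]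
    [IsScalarTower K E Ω] [IsScalarTower k E Ω] [IsScalarTower K k Ω] [Algebra A.F Ω]
    [IsScalarTower K A.F Ω] [BC K E A.F Ω]
    [Algebra k E'] [Algebra E E'] [IsScalarTower k E E']
    [Algebra K E'] [IsScalarTower K k E'] [IsScalarTower K E E']
    [Algebra E' Ω'] [Algebra K Ω'] [Algebra k Ω']
    [IsScalarTower K E' Ω'] [IsScalarTower k E' Ω'] [IsScalarTower K k Ω'] [Algebra A.F Ω']
    [IsScalarTower K A.F Ω'] [BC K E' A.F Ω'] (f : A.F) (P : A.Pt E) :
    A.hgt k Ω' f (A.map (IsScalarTower.toAlgHom K E' Ω')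
      (A.map (IsScalarTower.toAlgHom K E E') P)) =
      Module.finrank E E' * A.hgt k Ω f (A.map (IsScalarTower.toAlgHom K E Ω) P) := by
  let _ : Algebra E Ω' := ((algebraMap E' Ω').comp (algebraMap E E')).toAlgebra
  have t1 : IsScalarTower E E' Ω' := IsScalarTower.of_algebraMap_eq' rfl
  have t2 : IsScalarTower K E Ω' := IsScalarTower.of_algebraMap_eq fun x => by
    rw [IsScalarTower.algebraMap_apply E E' Ω', ← IsScalarTower.algebraMap_apply K E E',
      ← IsScalarTower.algebraMap_apply K E' Ω']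
  have t3 : IsScalarTower k E Ω' := IsScalarTower.of_algebraMap_eq fun x => by
    rw [IsScalarTower.algebraMap_apply E E' Ω', ← IsScalarTower.algebraMap_apply k E E',
      ← IsScalarTower.algebraMap_apply k E' Ω']
  have b1 : BC K E A.F (SubE E A.F Ω') := bc_subE K E E' A.F Ω'
  have t4 : IsScalarTower K k (SubE E A.F Ω') := IsScalarTower.of_algebraMap_eq fun x =>
    Subtype.ext (IsScalarTower.algebraMap_apply K k Ω' x)
  have t5 : IsScalarTower k (SubE E A.F Ω') Ω' := IsScalarTower.of_algebraMap_eq' rfl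
  have t6 : IsScalarTower K (SubE E A.F Ω') Ω' := IsScalarTower.of_algebraMap_eq' rfl
  rw [hiso k E Ω (SubE E A.F Ω') f P, ← finrank_subE K E E' A.F Ω', ← hgt_map A k]
  congr 1
  rw [← A.map_comp, ← A.map_comp]
  rfl

end Fermat.Agent.AVE1
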